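/-
S45, project CARAYOL-K, block PTS, node PRE-K (helper103): the closed points of the special fibre of a chart of a
`PreModelK` (arbitrary finite index type `κ`).  Port of `BAD/Model/Pre/{Denominator,Inv,IsPt,Loc}.lean`.

`PreModelK.inv`, `PreModelK.chart_le`, `PreModelK.isPt`, `PreModelK.qep_pow`, `PreModelK.exists_denominator`,
`PreModelK.exists_sep`, `PreModelK.loc`.
-/
import Fermat.Agent.S45.Pts.Defs
import Fermat.Agent.BAD.Model.Pre.Loc
import Fermat.Agent.BAD.Model.Pre.Inv

set_option autoImplicit false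
set_option linter.style.haveILetI false

noncomputable section

namespace Fermat.Agent.S45.Pts

open Fermat.Agent.S18 Fermat.Agent.S36.BP Fermat.Agent.BAD.Model IntermediateField Polynomial

variable {K₀ F : Type*} [Field K₀] [Field F] [Algebra K₀ F]
variable {A₀ : ValuationSubring K₀} {q : ℕ} {x : F} {κ : Type*} {V : κ → ValuationSubring F}

theorem PreModelK.x_ne_zero (P : PreModelK A₀ q x V) : x ≠ 0 := by
  rintro rfl
  exact P.transc isAlgebraic_zero

theorem PreModelK.q_ne_zero (P : PreModelK A₀ q x V) : (q : F) ≠ 0 := by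
  have h1 : (q : K₀) ≠ 0 := P.base.unif.ne_zero
  have h2 : algebraMap K₀ F (q : K₀) ≠ 0 := (_root_.map_ne_zero _).mpr h1
  rwa [map_natCast] at h2

theorem PreModelK.inv (P : PreModelK A₀ q x V) : PreModelK A₀ q x⁻¹ V where
  base := P.base
  transc := transcendental_inv P.transc
  finite := by
    rw [adjoin_simple_inv_eq]
    exact P.finite
  const_mem := P.const_mem
  x_unit c := by rw [map_inv₀, P.x_unit, inv_one]
  gauss c p hp hval i := by
    have hx : x ≠ 0 := P.x_ne_zero
    rw [← aeval_reverse_mul_inv_pow hx p, map_mul, map_pow, map_inv₀, P.x_unit, inv_one, one_pow,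
      mul_one] at hval
    have h1 := P.gauss c p.reverse (fun j => by rw [coeff_reverse]; exact hp _) hval
      (revAt p.natDegree i)
    rwa [coeff_reverse, revAt_invol] at h1
  inj := P.inj
  unif := P.unif
  qep₁ := P.qep₂
  qep₂ := by
    rw [inv_inv]
    exact P.qep₁

theorem PreModelK.chart_le (P : PreModelK A₀ q x V) (c : κ) :
    ∀ b ∈ chart A₀.toSubring x, b ∈ V c :=
  LocQep.chart_le_of (P.const_mem c) (((V c).valuation_le_one_iff x).mp (P.x_unit c).le)

theorem PreModelK.isPt (P : PreModelK A₀ q x V) (𝔫 : Ideal (chart A₀.toSubring x))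
    [𝔫.IsMaximal] (h𝔫 : (q : chart A₀.toSubring x) ∈ 𝔫) :
    IsPt A₀ (locSub (chart A₀.toSubring x) 𝔫) := by
  haveI := P.base.charZero
  have h₀ := P.base.unif
  have hq : constToChart A₀ x ⟨(q : K₀), h₀.mem⟩ ∈ 𝔫 := by
    have : constToChart A₀ x ⟨(q : K₀), h₀.mem⟩ = (q : chart A₀.toSubring x) := by
      apply Subtype.ext
      rw [coe_constToChart]
      simp
    rw [this]
    exact h𝔫
  have hconst_rad : ∀ a : K₀, A₀.valuation a < 1 →
      algebraMap K₀ F a ∈ rad (locSub (chart A₀.toSubring x) 𝔫) := by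
    intro a ha
    obtain ⟨a', ha', e⟩ := exists_eq_unif_mul h₀ ha
    have h1 : constToChart A₀ x ⟨(q : K₀), h₀.mem⟩ * constToChart A₀ x ⟨a', ha'⟩ ∈ 𝔫 :=
      𝔫.mul_mem_right _ hq
    have h2 := coe_mem_rad_locSub h1
    have h3 : ((constToChart A₀ x ⟨(q : K₀), h₀.mem⟩ * constToChart A₀ x ⟨a', ha'⟩ :
        chart A₀.toSubring x) : F) = algebraMap K₀ F a := by
      push_cast
      rw [coe_constToChart, coe_constToChart, e, map_mul]
    rwa [h3] at h2
  have hres := exists_const_sub_mem h₀ P.base.algClosed P.transc P.finite 𝔫 hq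
  refine ⟨fun a ha b hb => add_mem_rad_locSub ha hb, ?_, hconst_rad, ?_, ?_, ?_⟩
  · intro a ha
    exact le_locSub (constToChart A₀ x ⟨a, ha⟩).2
  · rintro r ⟨b, s, hs, e⟩
    obtain ⟨β, hβ⟩ := hres b
    obtain ⟨σ, hσ⟩ := hres s
    have hs0 := coe_ne_zero_of_notMem hs
    have hσn : constToChart A₀ x σ ∉ 𝔫 := by
      intro h
      apply hs
      have := 𝔫.add_mem hσ h
      simpa using this
    have hσ0 : (σ : K₀) ≠ 0 := by
      intro h
      apply hσn
      have : σ = 0 := Subtype.ext h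
      rw [this, map_zero]
      exact 𝔫.zero_mem
    have hσu : ¬ A₀.valuation (σ : K₀) < 1 := by
      intro hlt
      obtain ⟨a', ha', e'⟩ := exists_eq_unif_mul h₀ hlt
      apply hσn
      have : σ = ⟨(q : K₀), h₀.mem⟩ * ⟨a', ha'⟩ := Subtype.ext e'
      rw [this, map_mul]
      exact 𝔫.mul_mem_right _ hq
    have hσinv : (σ : K₀)⁻¹ ∈ A₀ := by
      rw [← A₀.valuation_le_one_iff, map_inv₀]
      have h1 : A₀.valuation (σ : K₀) = 1 :=
        le_antisymm ((A₀.valuation_le_one_iff _).mpr σ.2) (not_lt.mp hσu)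
      rw [h1, inv_one]
    refine ⟨(β : K₀) * (σ : K₀)⁻¹, A₀.mul_mem _ _ β.2 hσinv, ?_⟩
    rw [mem_rad_locSub_iff]
    refine ⟨(b - constToChart A₀ x β) * constToChart A₀ x σ -
        constToChart A₀ x β * (s - constToChart A₀ x σ), s * constToChart A₀ x σ,
      𝔫.sub_mem (𝔫.mul_mem_right _ hβ) (𝔫.mul_mem_left _ hσ),
      fun h => (Ideal.IsPrime.mem_or_mem inferInstance h).elim hs hσn, ?_⟩
    have hσF : algebraMap K₀ F (σ : K₀) ≠ 0 := (_root_.map_ne_zero _).mpr hσ0
    have key : (r - algebraMap K₀ F ((β : K₀) * (σ : K₀)⁻¹)) *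
        ((s : F) * algebraMap K₀ F (σ : K₀)) =
        ((b : F) - algebraMap K₀ F (β : K₀)) * algebraMap K₀ F (σ : K₀) -
          algebraMap K₀ F (β : K₀) * ((s : F) - algebraMap K₀ F (σ : K₀)) := by
      rw [← e, map_mul, map_inv₀]
      field_simp
      ring
    exact key
  · exact mem_locSub_of_isIntegral (fun y hy => mem_chart_of_isIntegral_chart _ _ _ hy)
  · haveI := isNoetherianRing_chart h₀ P.transc P.finite
    exact isNoetherianRing_locSub

theorem PreModelK.qep_pow (P : PreModelK A₀ q x V) (k : ℕ) (y : F)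
    (h : (q : F) ^ k * y ∈ chart A₀.toSubring x) (hV : ∀ c, y ∈ V c) :
    y ∈ chart A₀.toSubring x := by
  induction k with
  | zero => simpa using h
  | succ k ih =>
    apply ih
    apply P.qep₁
    · rw [← mul_assoc, ← pow_succ']
      exact h
    · intro c
      exact (V c).mul_mem _ _ ((V c).pow_mem (natCast_mem (V c) q) k) (hV c)

theorem PreModelK.exists_denominator (P : PreModelK A₀ q x V) (y : F) :
    ∃ d ∈ polyRing A₀.toSubring x, (∀ c, (V c).valuation d = 1) ∧
      ∃ k : ℕ, (q : F) ^ k * (d * y) ∈ chart A₀.toSubring x := by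
  have h₀ : IsUnif A₀ (q : K₀) := P.base.unif
  have hq0 : (q : K₀) ≠ 0 := h₀.ne_zero
  obtain ⟨p, hp0, hp⟩ := ChartBasic.exists_mul_mem_chart_top P.finite rfl y
  have hp' : p ≠ 0 := by
    rintro rfl
    exact hp0 (map_zero _)
  obtain ⟨n, p₁, hpp, h1, i₀, hi₀, hi₀'⟩ := IsCoord.exists_primitive h₀ p hp'
  refine ⟨aeval x p₁, (mem_polyRing_iff _ x _).mpr ⟨p₁, h1, rfl⟩, fun c => ?_, ?_⟩
  · apply le_antisymm
    · rw [ValuationSubring.valuation_le_one_iff, aeval_eq_sum_range]
      refine sum_mem fun i _ => ?_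
      rw [Algebra.smul_def]
      have hx : x ∈ V c := (ValuationSubring.valuation_le_one_iff _ _).mp (P.x_unit c).le
      exact (V c).mul_mem _ _ (P.const_mem c _ (h1 i)) ((V c).pow_mem hx i)
    · rw [← not_lt]
      intro hlt
      have h2 := P.gauss c p₁ h1 hlt i₀
      have h3 : A₀.valuation (p₁.coeff i₀)⁻¹ ≤ 1 :=
        (ValuationSubring.valuation_le_one_iff _ _).mpr hi₀
      have h4 : A₀.valuation (p₁.coeff i₀ * (p₁.coeff i₀)⁻¹) < 1 := by
        rw [map_mul]
        exact mul_lt_one_of_lt_of_le h2 h3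
      rw [mul_inv_cancel₀ hi₀', map_one] at h4
      exact lt_irrefl _ h4
  · have hz : aeval x p₁ * y ∈ chart (⊤ : Subring K₀) x := by
      have h5 : aeval x p₁ * y = algebraMap K₀ F (((q : K₀) ^ n)⁻¹) * (aeval x p * y) := by
        rw [hpp, map_mul, aeval_C, ← mul_assoc, ← mul_assoc, ← map_mul,
          inv_mul_cancel₀ (zpow_ne_zero _ hq0), map_one, one_mul]
      rw [h5]
      exact Subring.mul_mem _ (ChartBasic.const_mem_chart_top _) hp
    obtain ⟨k, hk⟩ := exists_pow_mul_mem_chart h₀ hz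
    refine ⟨k, ?_⟩
    rwa [map_natCast] at hk

theorem PreModelK.exists_sep [Finite κ] (P : PreModelK A₀ q x V) (c : κ) :
    ∃ h ∈ chart A₀.toSubring x, (V c).valuation h = 1 ∧ ∀ c', c' ≠ c → (V c').valuation h < 1 := by
  classical
  choose ϖ hU using P.unif
  obtain ⟨g, -, hg⟩ := exists_prescribed_orders V ϖ hU P.inj (fun c' => if c' = c then 0 else 1)
  obtain ⟨d, -, hd, k, hk⟩ := P.exists_denominator g
  have hval : ∀ c', (V c').valuation (d * g) = if c' = c then 1 else (V c').valuation (ϖ c') := by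
    intro c'
    rw [map_mul, hd c', one_mul, hg c']
    split_ifs
    · rw [zpow_zero]
    · rw [zpow_one]
  refine ⟨d * g, P.qep_pow k _ hk fun c' => ?_, ?_, fun c' hc' => ?_⟩
  · rw [← ValuationSubring.valuation_le_one_iff, hval c']
    split_ifs
    · exact le_rfl
    · exact (approx_val_unif_lt_one (hU c')).le
  · rw [hval c, if_pos rfl]
  · rw [hval c', if_neg hc']
    exact approx_val_unif_lt_one (hU c')

theorem PreModelK.loc [Finite κ] (P : PreModelK A₀ q x V) (c : κ) :
    ∀ y ∈ V c, ∃ s ∈ chart A₀.toSubring x, (V c).valuation s = 1 ∧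
      s * y ∈ chart A₀.toSubring x := by
  classical
  cases nonempty_fintype κ
  intro y hy
  choose ϖ hU using P.unif
  obtain ⟨d, hdp, hd, k, hk⟩ := P.exists_denominator y
  obtain ⟨h, hh, hhc, hhc'⟩ := P.exists_sep c
  have hdB : d ∈ chart A₀.toSubring x := polyRing_le_chart _ _ hdp
  have hex : ∀ c', ∃ m : ℕ, c' ≠ c → h ^ m * (d * y) ∈ V c' := by
    intro c'
    by_cases hc' : c' = c
    · exact ⟨0, fun h' => absurd hc' h'⟩
    · obtain ⟨m, hm⟩ := LocQep.exists_pow_mul_mem (hU c') (hhc' c' hc') (d * y)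
      exact ⟨m, fun _ => hm⟩
  choose m hm using hex
  set M : ℕ := ∑ c', m c' with hM
  have hsB : h ^ M * d ∈ chart A₀.toSubring x := Subring.mul_mem _ (Subring.pow_mem _ hh M) hdB
  refine ⟨h ^ M * d, hsB, by rw [map_mul, map_pow, hhc, one_pow, hd c, one_mul], ?_⟩
  refine P.qep_pow k _ ?_ fun c' => ?_
  · have e : (q : F) ^ k * (h ^ M * d * y) = h ^ M * ((q : F) ^ k * (d * y)) := by ring
    rw [e]
    exact Subring.mul_mem _ (Subring.pow_mem _ hh M) hk
  · by_cases hc' : c' = c
    · subst hc'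
      exact (V c').mul_mem _ _ (P.chart_le c' _ hsB) hy
    · have hle : m c' ≤ M := Finset.single_le_sum (f := m) (fun _ _ => Nat.zero_le _)
        (Finset.mem_univ c')
      have e : h ^ M * d * y = h ^ (M - m c') * (h ^ m c' * (d * y)) := by
        rw [← mul_assoc, ← pow_add, Nat.sub_add_cancel hle, mul_assoc]
      rw [e]
      exact (V c').mul_mem _ _ (pow_mem (P.chart_le c' _ hh) _) (hm c' hc')

end Fermat.Agent.S45.Pts

end
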