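/-
S45, project CARAYOL-K, block PTS, node PRE-K (helper103): every closed point of the special fibre of a chart of a
`PreModelK` is a `PtBaseK`; the overlap of the two charts.
Port of `BAD/Model/Pre/{PtBaseCore,PtBase,Overlap}.lean` to an arbitrary finite index type.

`PreModelK.ptBaseK`, `PreModelK.ptBaseK_inv`, `PreModelK.exists_point_of_inv_notMem`.
-/
import Fermat.Agent.S45.Pts.Pre.Basic
import Fermat.Agent.BAD.Model.Pre.PtBaseCore
import Fermat.Agent.BAD.Model.Pre.Overlap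

set_option autoImplicit false
set_option linter.style.haveILetI false

noncomputable section

namespace Fermat.Agent.S45.Pts

open Fermat.Agent.S18 Fermat.Agent.S36.BP Fermat.Agent.BAD.Model IntermediateField Polynomial

variable {K₀ F : Type*} [Field K₀] [Field F] [Algebra K₀ F]
variable {A₀ : ValuationSubring K₀} {q : ℕ} {x : F} {κ : Type*} {V : κ → ValuationSubring F}

namespace PreModelK

variable (P : PreModelK A₀ q x V) (𝔫 : Ideal (chart A₀.toSubring x)) [h𝔫m : 𝔫.IsMaximal]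

include P in
theorem leLoc_or_away [Finite κ] (c : κ) :
    LeLoc (locSub (chart A₀.toSubring x) 𝔫) (V c) ∨ Away (locSub (chart A₀.toSubring x) 𝔫) (V c) := by
  have hpr : 𝔫.IsPrime := Ideal.IsMaximal.isPrime inferInstance
  have hB := P.chart_le c
  by_cases h : ∃ e : chart A₀.toSubring x, e ∉ 𝔫 ∧ (V c).valuation (e : F) < 1
  · obtain ⟨e, he, hlt⟩ := h
    right
    refine ⟨e, rUnit_locSub_iff.mpr ⟨e, 1, he,
      fun h1 => hpr.ne_top ((Ideal.eq_top_iff_one _).2 h1), by simp⟩, hlt⟩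
  · left
    simp only [not_exists, not_and, not_lt] at h
    have hone : ∀ e : chart A₀.toSubring x, e ∉ 𝔫 → (V c).valuation (e : F) = 1 := fun e he =>
      le_antisymm ((ValuationSubring.valuation_le_one_iff _ _).2 (hB _ e.2)) (h e he)
    refine ⟨?_, ?_⟩
    · rintro r ⟨a, s, hs, e⟩
      rw [← ValuationSubring.valuation_le_one_iff]
      have h1 := congrArg (V c).valuation e
      rw [map_mul, hone s hs, mul_one] at h1
      rw [h1]
      exact (ValuationSubring.valuation_le_one_iff _ _).2 (hB _ a.2)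
    · intro y hy
      obtain ⟨s, hs, hs1, hsy⟩ := P.loc c y hy
      exact ⟨s, le_locSub hs, hs1, le_locSub hsy⟩

include P in
theorem not_all_away [Finite κ] (h𝔫 : (q : chart A₀.toSubring x) ∈ 𝔫) :
    ¬ ∀ c, Away (locSub (chart A₀.toSubring x) 𝔫) (V c) := by
  classical
  cases nonempty_fintype κ
  have hpr : 𝔫.IsPrime := Ideal.IsMaximal.isPrime inferInstance
  intro hA
  have hex : ∀ c, ∃ a : chart A₀.toSubring x, a ∉ 𝔫 ∧ (V c).valuation (a : F) < 1 := fun c =>
    LocQep.exists_of_away (P.chart_le c) (hA c)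
  choose a ha1 ha2 using hex
  have hle : ∀ c (b : chart A₀.toSubring x), (V c).valuation (b : F) ≤ 1 := fun c b =>
    (ValuationSubring.valuation_le_one_iff _ _).2 (P.chart_le c _ b.2)
  set b : chart A₀.toSubring x := ∏ c, a c with hb
  have hbn : b ∉ 𝔫 := by
    intro h
    obtain ⟨c, -, hc⟩ := (hpr.prod_mem_iff).1 h
    exact ha1 c hc
  have hbv : ∀ c, (V c).valuation (b : F) < 1 := by
    intro c
    have e : b = a c * ∏ c' ∈ Finset.univ.erase c, a c' := by
      rw [hb, Finset.mul_prod_erase _ _ (Finset.mem_univ c)]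
    rw [e, Subring.coe_mul, map_mul]
    exact lt_of_le_of_lt (mul_le_of_le_one_right' (hle c _)) (ha2 c)
  have hq0 : (q : F) ≠ 0 := P.q_ne_zero
  choose ϖ hU using P.unif
  choose m hm using fun c => LocQep.exists_pow_mul_mem (hU c) (hbv c) ((q : F))⁻¹
  set M : ℕ := ∑ c, m c with hM
  have hy : (b : F) ^ M / (q : F) ∈ chart A₀.toSubring x := by
    apply P.qep₁
    · rw [mul_div_cancel₀ _ hq0]
      exact (chart A₀.toSubring x).pow_mem b.2 _
    · intro c
      have hle' : m c ≤ M := Finset.single_le_sum (f := m) (fun _ _ => Nat.zero_le _)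
        (Finset.mem_univ c)
      have e : (b : F) ^ M / (q : F) = (b : F) ^ (M - m c) * ((b : F) ^ m c * ((q : F))⁻¹) := by
        rw [← mul_assoc, ← pow_add, Nat.sub_add_cancel hle', div_eq_mul_inv]
      rw [e]
      exact (V c).mul_mem _ _ ((V c).pow_mem (P.chart_le c _ b.2) _) (hm c)
  have hmem : b ^ M ∈ 𝔫 := by
    have e : b ^ M = (q : chart A₀.toSubring x) * ⟨_, hy⟩ := by
      apply Subtype.ext
      push_cast
      rw [mul_div_cancel₀ _ hq0]
    rw [e]
    exact 𝔫.mul_mem_right _ h𝔫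
  exact hbn (hpr.mem_of_pow_mem _ hmem)

include P in
theorem qep_loc [Finite κ] (y : F) (h1 : (q : F) * y ∈ locSub (chart A₀.toSubring x) 𝔫)
    (h2 : ∀ c, y ∈ V c ∨ Away (locSub (chart A₀.toSubring x) 𝔫) (V c)) :
    y ∈ locSub (chart A₀.toSubring x) 𝔫 := by
  classical
  cases nonempty_fintype κ
  have hpr : 𝔫.IsPrime := Ideal.IsMaximal.isPrime inferInstance
  have hB := P.chart_le
  have ht : ∀ c, ∃ t : chart A₀.toSubring x, t ∉ 𝔫 ∧ (t : F) * y ∈ V c := by
    intro c
    rcases h2 c with hT | hA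
    · refine ⟨1, fun h => hpr.ne_top ((Ideal.eq_top_iff_one _).2 h), ?_⟩
      rw [Subring.coe_one, one_mul]
      exact hT
    · obtain ⟨a, ha, hlt⟩ := LocQep.exists_of_away (hB c) hA
      obtain ⟨ϖ, hϖ⟩ := P.unif c
      obtain ⟨k, hk⟩ := LocQep.exists_pow_mul_mem hϖ hlt y
      refine ⟨a ^ k, fun h => ha (hpr.mem_of_pow_mem k h), ?_⟩
      rw [Subring.coe_pow]
      exact hk
  choose t ht1 ht2 using ht
  obtain ⟨a, s, hs, has⟩ := h1
  set T : chart A₀.toSubring x := ∏ c, t c with hTdef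
  have hTn : T ∉ 𝔫 := by
    intro h
    obtain ⟨c, -, hc⟩ := (hpr.prod_mem_iff).1 h
    exact ht1 c hc
  have hT : T * s ∉ 𝔫 := fun h => (hpr.mem_or_mem h).elim hTn hs
  have hy' : ((T * s : chart A₀.toSubring x) : F) * y ∈ chart A₀.toSubring x := by
    apply P.qep₁
    · have e : (q : F) * (((T * s : chart A₀.toSubring x) : F) * y)
          = ((T * a : chart A₀.toSubring x) : F) := by
        push_cast
        rw [← has]
        ring
      rw [e]
      exact Subtype.property _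
    · intro c
      have e0 : T = t c * ∏ c' ∈ Finset.univ.erase c, t c' := by
        rw [hTdef, Finset.mul_prod_erase _ _ (Finset.mem_univ c)]
      have e : ((T * s : chart A₀.toSubring x) : F) * y
          = (((∏ c' ∈ Finset.univ.erase c, t c') * s : chart A₀.toSubring x) : F) *
            ((t c : F) * y) := by
        rw [e0]
        push_cast
        ring
      rw [e]
      exact (V c).mul_mem _ _ (hB c _ (Subtype.property _)) (ht2 c)
  exact ⟨⟨_, hy'⟩, T * s, hT, mul_comm _ _⟩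

include P in
/-- **Every closed point of the special fibre of the chart of `x` is a `PtBaseK`.** -/
theorem ptBaseK [Finite κ] (h𝔫 : (q : chart A₀.toSubring x) ∈ 𝔫) :
    PtBaseK A₀ q V (locSub (chart A₀.toSubring x) 𝔫) where
  isPt := P.isPt 𝔫 h𝔫
  leLoc_or_away := P.leLoc_or_away 𝔫
  not_all_away := P.not_all_away 𝔫 h𝔫
  qep := P.qep_loc 𝔫

end PreModelK

/-- The same for the chart of `x⁻¹`. -/
theorem PreModelK.ptBaseK_inv [Finite κ] (P : PreModelK A₀ q x V)
    (𝔫 : Ideal (chart A₀.toSubring x⁻¹)) [𝔫.IsMaximal] (h𝔫 : (q : chart A₀.toSubring x⁻¹) ∈ 𝔫) :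
    PtBaseK A₀ q V (locSub (chart A₀.toSubring x⁻¹) 𝔫) :=
  P.inv.ptBaseK 𝔫 h𝔫

/-- A closed point of the special fibre of the chart of `x⁻¹` at which `x⁻¹` does not vanish is a closed point of
the special fibre of the chart of `x`. -/
theorem PreModelK.exists_point_of_inv_notMem (P : PreModelK A₀ q x V)
    (𝔫 : Ideal (chart A₀.toSubring x⁻¹)) [𝔫.IsMaximal] (h𝔫 : (q : chart A₀.toSubring x⁻¹) ∈ 𝔫)
    (hx : (⟨x⁻¹, self_mem_chart _⟩ : chart A₀.toSubring x⁻¹) ∉ 𝔫) :
    ∃ (𝔪 : Ideal (chart A₀.toSubring x)) (h𝔪 : 𝔪.IsMaximal), (q : chart A₀.toSubring x) ∈ 𝔪 ∧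
      (haveI := h𝔪; locSub (chart A₀.toSubring x) 𝔪) = locSub (chart A₀.toSubring x⁻¹) 𝔫 := by
  have hR : IsPt A₀ (locSub (chart A₀.toSubring x⁻¹) 𝔫) := P.inv.isPt 𝔫 h𝔫
  have hx0 : x ≠ 0 := P.x_ne_zero
  have hxi0 : x⁻¹ ≠ 0 := inv_ne_zero hx0
  have hxR : x ∈ locSub (chart A₀.toSubring x⁻¹) 𝔫 := by
    have := inv_mem_locSub hx
    rwa [inv_inv] at this
  have hxu : RUnit (locSub (chart A₀.toSubring x⁻¹) 𝔫) x :=
    ⟨hx0, hxR, le_locSub (self_mem_chart _)⟩
  refine exists_point_of_isPt P.base hR hxR ?_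
  rintro y ⟨a, s, hs, e⟩
  obtain ⟨N₁, h1⟩ := chart_overlap A₀.toSubring hxi0 (a : F) a.2
  obtain ⟨N₂, h2⟩ := chart_overlap A₀.toSubring hxi0 (s : F) s.2
  rw [inv_inv] at h1 h2
  have hxB : x ∈ chart A₀.toSubring x := self_mem_chart _
  have h1' : x ^ (N₁ + N₂) * (a : F) ∈ chart A₀.toSubring x := by
    have : x ^ (N₁ + N₂) * (a : F) = x ^ N₂ * (x ^ N₁ * (a : F)) := by ring
    rw [this]
    exact Subring.mul_mem _ (Subring.pow_mem _ hxB _) h1
  have h2' : x ^ (N₁ + N₂) * (s : F) ∈ chart A₀.toSubring x := by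
    have : x ^ (N₁ + N₂) * (s : F) = x ^ N₁ * (x ^ N₂ * (s : F)) := by ring
    rw [this]
    exact Subring.mul_mem _ (Subring.pow_mem _ hxB _) h2
  have hsu : RUnit (locSub (chart A₀.toSubring x⁻¹) 𝔫) (s : F) :=
    ⟨coe_ne_zero_of_notMem hs, le_locSub s.2, inv_mem_locSub hs⟩
  refine ⟨⟨_, h1'⟩, ⟨_, h2'⟩, (hxu.pow _).mul hsu, ?_⟩
  change y * (x ^ (N₁ + N₂) * (s : F)) = x ^ (N₁ + N₂) * (a : F)
  rw [← e]
  ring

end Fermat.Agent.S45.Pts

end
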